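import Fermat.Agent.S55.G.Rec.H413.L5Group
import Fermat.Agent.S55.H413.WRSub
import Fermat.Agent.S55.Local.H713.T3Cor
import Fermat.Agent.S55.L.Inst63

/-!
# S55 / G / REC, leaf L5 (helper413), part 2: the local cyclotomic field `ℚ_ℓ(μ_{ℓ^(n+1)})`

* `normIndex_cyclotomic` : the norm index of `ℚ_ℓ(ζ_{ℓ^(n+1)})/ℚ_ℓ` is the degree (instance of the
  local norm index theorem for cyclic extensions, `Local.H713.normIndexCyclicSpec`).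
* `normRange_cyclotomic_eq` : `N(Fˣ) = ker (wildChar)`, UNCONDITIONAL (`ℓ` odd).
-/

set_option autoImplicit false
set_option linter.style.haveILetI false

namespace Fermat.Agent.S55.G.Rec.H413

open Polynomial

variable (ℓ : ℕ) [hℓ : Fact ℓ.Prime]

section Abstract

/-- `Gal(ℚ_ℓ(ζ_{ℓ^(n+1)})/ℚ_ℓ)` is cyclic (`ℓ` odd). -/
theorem isCyclic_gal_cyclotomic (n : ℕ) (F : Type) [Field F] [Algebra ℚ_[ℓ] F]
    [IsCyclotomicExtension {ℓ ^ (n + 1)} ℚ_[ℓ] F] (hℓ2 : ℓ ≠ 2) : IsCyclic (F ≃ₐ[ℚ_[ℓ]] F) := by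
  have : NeZero (ℓ ^ (n + 1)) := ⟨(pow_pos hℓ.out.pos _).ne'⟩
  have e := IsCyclotomicExtension.autEquivPow F
    (Fermat.Agent.S55.H413.irreducible_cyclotomic_padic ℓ n)
  have : IsCyclic (ZMod (ℓ ^ (n + 1)))ˣ := ZMod.isCyclic_units_of_prime_pow ℓ hℓ.out hℓ2 (n + 1)
  exact isCyclic_of_surjective e.symm e.symm.surjective

/-- The norm index of `ℚ_ℓ(ζ_{ℓ^(n+1)})/ℚ_ℓ` equals the degree. -/
theorem normIndex_cyclotomic (n : ℕ) (F : Type) [Field F] [Algebra ℚ_[ℓ] F]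
    [IsCyclotomicExtension {ℓ ^ (n + 1)} ℚ_[ℓ] F] (hℓ2 : ℓ ≠ 2) :
    (Fermat.Agent.S55.H413.normRange ℓ F).index = Module.finrank ℚ_[ℓ] F := by
  have : NeZero (ℓ ^ (n + 1)) := ⟨(pow_pos hℓ.out.pos _).ne'⟩
  haveI : Fermat.Agent.S55.L.IsLocalFld ℚ_[ℓ] := Fermat.Agent.S55.L.padicInst63 ℓ
  haveI : FiniteDimensional ℚ_[ℓ] F :=
    IsCyclotomicExtension.finiteDimensional {ℓ ^ (n + 1)} ℚ_[ℓ] F
  haveI : IsGalois ℚ_[ℓ] F := IsCyclotomicExtension.isGalois {ℓ ^ (n + 1)} ℚ_[ℓ] F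
  haveI : IsCyclic (F ≃ₐ[ℚ_[ℓ]] F) := isCyclic_gal_cyclotomic ℓ n F hℓ2
  exact Fermat.Agent.S55.Local.H713.normIndexCyclicSpec ℚ_[ℓ] F

/-- **Norm group of the local cyclotomic field**, unconditional. -/
theorem normRange_cyclotomic_eq (n : ℕ) (F : Type) [Field F] [Algebra ℚ_[ℓ] F]
    [IsCyclotomicExtension {ℓ ^ (n + 1)} ℚ_[ℓ] F] (hℓ2 : ℓ ≠ 2) :
    Fermat.Agent.S55.H413.normRange ℓ F = (Fermat.Agent.S55.H413.wildChar ℓ (n + 1)).ker :=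
  Fermat.Agent.S55.H413.normRange_eq_ker_wildChar ℓ n F hℓ2 (normIndex_cyclotomic ℓ n F hℓ2)

end Abstract

end Fermat.Agent.S55.G.Rec.H413
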