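import Fermat.Agent.S55.G.Rec.H413.L5Cyclo
import Fermat.Agent.S55.G.Rec.RelNormH707

/-!
# S55 / G / REC, leaf L5 (helper413), part 3: `ℚ_ℓ(ζ)` inside `PadicAlgCl ℓ`

`ζ` a primitive `ℓ^(n+1)`-th root of unity in `Ω = PadicAlgCl ℓ`, `F = ℚ_ℓ(ζ) ⊆ Ω`,
`N = Gal(Ω/F)`, `c = hζ.autToPow ℚ_ℓ : Gal(Ω/ℚ_ℓ) → (ℤ/ℓ^(n+1))ˣ` the cyclotomic character.

* `ker_autToPow_eq` : `ker c = N`;
* `relNorm_fixing_eq_norm` : `relNorm N b = N_{F/ℚ_ℓ}(b)` for `b ∈ Fˣ`;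
* `mem_map_of_pow_card_eq_one` : in a finite cyclic group, `u ^ |B| = 1 → u ∈ B`.
-/

set_option autoImplicit false
set_option linter.style.haveILetI false

namespace Fermat.Agent.S55.G.Rec.H413

open Polynomial

/-- In a finite cyclic group, an element killed by the order of a subgroup lies in it. -/
theorem mem_of_pow_card_eq_one {A : Type*} [CommGroup A] [Finite A] [IsCyclic A]
    (B : Subgroup A) (u : A) (hu : u ^ Nat.card B = 1) : u ∈ B := by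
  classical
  letI : Fintype A := Fintype.ofFinite A
  have hpos : 0 < Nat.card B := Nat.card_pos
  have hle := IsCyclic.card_pow_eq_one_le (α := A) hpos
  set S : Finset A := Finset.univ.filter (fun a : A => a ^ Nat.card B = 1) with hS
  have hBS : (Finset.univ.filter (fun a : A => a ∈ B)) ⊆ S := by
    intro a ha
    rw [Finset.mem_filter] at ha
    rw [hS, Finset.mem_filter]
    refine ⟨Finset.mem_univ _, ?_⟩
    have := pow_card_eq_one' (G := B) (x := ⟨a, ha.2⟩)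
    exact congrArg Subtype.val this
  have hcardB : (Finset.univ.filter (fun a : A => a ∈ B)).card = Nat.card B := by
    rw [Nat.card_eq_fintype_card, Fintype.card_subtype]
  have heq : Finset.univ.filter (fun a : A => a ∈ B) = S :=
    Finset.eq_of_subset_of_card_le hBS (by rw [hcardB]; exact hle)
  have huS : u ∈ S := by
    rw [hS, Finset.mem_filter]
    exact ⟨Finset.mem_univ _, hu⟩
  rw [← heq, Finset.mem_filter] at huS
  exact huS.2

variable (ℓ : ℕ) [hℓ : Fact ℓ.Prime]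

local notation "Ω" => PadicAlgCl ℓ
local notation "Gq" => (PadicAlgCl ℓ ≃ₐ[ℚ_[ℓ]] PadicAlgCl ℓ)

/-- A primitive `ℓ^(n+1)`-th root of unity exists in `PadicAlgCl ℓ`. -/
theorem exists_primitiveRoot_padicAlgCl (n : ℕ) : ∃ ζ : Ω, IsPrimitiveRoot ζ (ℓ ^ (n + 1)) := by
  have : NeZero (ℓ ^ (n + 1)) := ⟨(pow_pos hℓ.out.pos _).ne'⟩
  exact ⟨_, IsCyclotomicExtension.zeta_spec (ℓ ^ (n + 1)) Ω Ω⟩

/-- The field `ℚ_ℓ(ζ) ⊆ Ω`. -/
noncomputable abbrev cycF (ζ : PadicAlgCl ℓ) : IntermediateField ℚ_[ℓ] (PadicAlgCl ℓ) :=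
  IntermediateField.adjoin ℚ_[ℓ] {ζ}

section Fixed

variable {n : ℕ} {ζ : PadicAlgCl ℓ} (hζ : IsPrimitiveRoot ζ (ℓ ^ (n + 1)))

include hζ in
theorem isCyclotomicExtension_cycF :
    IsCyclotomicExtension {ℓ ^ (n + 1)} ℚ_[ℓ] (cycF ℓ ζ) := by
  have : NeZero (ℓ ^ (n + 1)) := ⟨(pow_pos hℓ.out.pos _).ne'⟩
  exact hζ.intermediateField_adjoin_isCyclotomicExtension ℚ_[ℓ]

theorem mem_fixingSubgroup_cycF_iff (ζ : PadicAlgCl ℓ) (τ : Gq) :
    τ ∈ (cycF ℓ ζ).fixingSubgroup ↔ τ ζ = ζ := by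
  constructor
  · intro h
    exact (IntermediateField.mem_fixingSubgroup_iff _ _).1 h ζ
      (IntermediateField.mem_adjoin_simple_self ℚ_[ℓ] ζ)
  · intro h
    rw [IntermediateField.mem_fixingSubgroup_iff]
    have hle : cycF ℓ ζ ≤ IntermediateField.fixedField (MulAction.stabilizer Gq ζ) := by
      rw [IntermediateField.adjoin_le_iff]
      rintro x rfl
      rw [SetLike.mem_coe, IntermediateField.mem_fixedField_iff]
      intro σ hσ
      exact hσ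
    intro x hx
    have := hle hx
    rw [IntermediateField.mem_fixedField_iff] at this
    exact this τ h

include hζ in
/-- The hypothesis of L5 on `W` says `Gal(Ω/ℚ_ℓ(ζ)) ≤ W`. -/
theorem fixingSubgroup_cycF_le {W : Subgroup Gq}
    (hW : ∀ τ : Gq, (∀ ξ : PadicAlgCl ℓ, ξ ^ (ℓ ^ (n + 1)) = 1 → τ ξ = ξ) → τ ∈ W) :
    (cycF ℓ ζ).fixingSubgroup ≤ W := by
  have : NeZero (ℓ ^ (n + 1)) := ⟨(pow_pos hℓ.out.pos _).ne'⟩
  intro τ hτ
  rw [mem_fixingSubgroup_cycF_iff] at hτ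
  refine hW τ (fun ξ hξ => ?_)
  obtain ⟨i, -, rfl⟩ := hζ.eq_pow_of_pow_eq_one hξ
  rw [map_pow, hτ]

include hζ in
/-- `τ ξ = ξ ^ (c τ)` for every `ℓ^(n+1)`-th root of unity `ξ`. -/
theorem autToPow_spec_all (τ : Gq) (ξ : PadicAlgCl ℓ) (hξ : ξ ^ (ℓ ^ (n + 1)) = 1) :
    haveI : NeZero (ℓ ^ (n + 1)) := ⟨(pow_pos hℓ.out.pos _).ne'⟩
    τ ξ = ξ ^ ((hζ.autToPow ℚ_[ℓ] τ : (ZMod (ℓ ^ (n + 1)))ˣ) : ZMod (ℓ ^ (n + 1))).val := by
  have : NeZero (ℓ ^ (n + 1)) := ⟨(pow_pos hℓ.out.pos _).ne'⟩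
  obtain ⟨i, -, rfl⟩ := hζ.eq_pow_of_pow_eq_one hξ
  rw [map_pow, ← hζ.autToPow_spec ℚ_[ℓ] τ, ← pow_mul, ← pow_mul, mul_comm]

include hζ in
/-- The kernel of the cyclotomic character is `Gal(Ω/ℚ_ℓ(ζ))`. -/
theorem ker_autToPow_eq :
    haveI : NeZero (ℓ ^ (n + 1)) := ⟨(pow_pos hℓ.out.pos _).ne'⟩
    (hζ.autToPow ℚ_[ℓ] : Gq →* (ZMod (ℓ ^ (n + 1)))ˣ).ker = (cycF ℓ ζ).fixingSubgroup := by
  have : NeZero (ℓ ^ (n + 1)) := ⟨(pow_pos hℓ.out.pos _).ne'⟩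
  have h1lt : 1 < ℓ ^ (n + 1) := Nat.one_lt_pow (Nat.succ_ne_zero n) hℓ.out.one_lt
  haveI : Fact (1 < ℓ ^ (n + 1)) := ⟨h1lt⟩
  ext τ
  rw [MonoidHom.mem_ker, mem_fixingSubgroup_cycF_iff]
  constructor
  · intro h
    have := hζ.autToPow_spec ℚ_[ℓ] τ
    rw [h, Units.val_one, ZMod.val_one, pow_one] at this
    exact this.symm
  · intro h
    have h2 := hζ.autToPow_spec ℚ_[ℓ] τ
    rw [h] at h2
    have h3 : ((hζ.autToPow ℚ_[ℓ] τ : (ZMod (ℓ ^ (n + 1)))ˣ) : ZMod (ℓ ^ (n + 1))).val = 1 := by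
      apply hζ.pow_inj (ZMod.val_lt _) h1lt
      rw [h2, pow_one]
    apply Units.ext
    rw [Units.val_one]
    apply ZMod.val_injective
    rw [h3, ZMod.val_one]

end Fixed

section Norm

variable {ℓ}

/-- For a finite normal `F ⊆ Ω` and `b ∈ Fˣ`: `relNorm Gal(Ω/F) b = N_{F/ℚ_ℓ}(b)`. -/
theorem relNorm_fixing_eq_norm (F : IntermediateField ℚ_[ℓ] (PadicAlgCl ℓ)) [Normal ℚ_[ℓ] F]
    [FiniteDimensional ℚ_[ℓ] F] (b : (PadicAlgCl ℓ)ˣ) (hb : (b : PadicAlgCl ℓ) ∈ F) :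
    ((relNorm F.fixingSubgroup b : (PadicAlgCl ℓ)ˣ) : PadicAlgCl ℓ) =
      algebraMap ℚ_[ℓ] (PadicAlgCl ℓ) (Algebra.norm ℚ_[ℓ] (⟨b, hb⟩ : F)) := by
  classical
  haveI := RelNormH707.isGalois_local ℓ
  haveI : IsGalois ℚ_[ℓ] F := ⟨⟩
  haveI : F.fixingSubgroup.FiniteIndex := by
    refine ⟨?_⟩
    rw [← IntermediateField.finrank_eq_fixingSubgroup_index]
    exact Module.finrank_pos.ne'
  have hsurj : Function.Surjective
      (AlgEquiv.restrictNormalHom F : Gq → (F ≃ₐ[ℚ_[ℓ]] F)) :=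
    AlgEquiv.restrictNormalHom_surjective (F := ℚ_[ℓ]) (K₁ := F) (PadicAlgCl ℓ)
  have hker : ∀ g : Gq, AlgEquiv.restrictNormalHom F g = 1 ↔ g ∈ F.fixingSubgroup := by
    intro g
    rw [← IntermediateField.restrictNormalHom_ker, MonoidHom.mem_ker]
  set r : (F ≃ₐ[ℚ_[ℓ]] F) → Gq := Function.surjInv hsurj with hr
  have hrσ : ∀ σ, AlgEquiv.restrictNormalHom F (r σ) = σ := Function.surjInv_eq hsurj
  have hfix : RelNormH707.FixedBy F.fixingSubgroup b := by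
    intro τ hτ
    apply Units.ext
    exact (IntermediateField.mem_fixingSubgroup_iff _ _).1 hτ _ hb
  have hbij : Function.Bijective fun σ : F ≃ₐ[ℚ_[ℓ]] F => ((r σ : Gq) : Gq ⧸ F.fixingSubgroup) := by
    constructor
    · intro σ σ' h
      have h1 : (r σ)⁻¹ * r σ' ∈ F.fixingSubgroup := QuotientGroup.eq.mp h
      rw [← hker, map_mul, map_inv, hrσ, hrσ, inv_mul_eq_one] at h1
      exact h1
    · intro x
      induction x using QuotientGroup.induction_on with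
      | H g =>
        refine ⟨AlgEquiv.restrictNormalHom F g, ?_⟩
        apply QuotientGroup.eq.mpr
        rw [← hker, map_mul, map_inv, hrσ, inv_mul_cancel]
  rw [RelNormH707.relNorm_eq_prod_of_bijective hfix r hbij, Units.coe_prod,
    IsScalarTower.algebraMap_apply ℚ_[ℓ] F (PadicAlgCl ℓ), Algebra.norm_eq_prod_automorphisms,
    map_prod]
  refine Finset.prod_congr rfl (fun σ _ => ?_)
  have := AlgEquiv.restrictNormalHom_apply F (r σ) ⟨b, hb⟩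
  rw [hrσ] at this
  exact this.symm

end Norm

end Fermat.Agent.S55.G.Rec.H413
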