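import Fermat.Agent.S55.G.Rec.Defs2

/-!
# S55 / G / REC, leaf L5 (helper413), part 1: group theory of `relNorm`

* `finprod_out_quot_pow` : for `N ≤ W ≤ G`, `N` of finite index and `φ : G → M` right-`W`-invariant,
  `∏ᶠ_{G/N} φ = (∏ᶠ_{G/W} φ) ^ [W : N]`.
* `relNorm_pow_relIndex` : `relNorm N b = relNorm W b ^ [W : N]` for `b` fixed by `W`.
* `smul_relNorm` : `relNorm W b` is fixed by `G` when `b` is fixed by `W` (finite index).
-/

set_option autoImplicit false
set_option linter.style.haveILetI false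

namespace Fermat.Agent.S55.G.Rec.H413

open scoped Classical in
/-- `∏_{G/N} φ = (∏_{G/W} φ) ^ [W : N]` for a right-`W`-invariant function `φ`. -/
theorem finprod_out_quot_pow {G M : Type*} [Group G] [CommMonoid M] {N W : Subgroup G}
    (hle : N ≤ W) [N.FiniteIndex] (φ : G → M) (hφ : ∀ g : G, ∀ w ∈ W, φ (g * w) = φ g) :
    ∏ᶠ s : G ⧸ N, φ (Quotient.out s) =
      (∏ᶠ t : G ⧸ W, φ (Quotient.out t)) ^ (N.relIndex W) := by
  have : W.FiniteIndex := Subgroup.finiteIndex_of_le hle
  letI : Fintype (G ⧸ N) := Fintype.ofFinite _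
  letI : Fintype (G ⧸ W) := Fintype.ofFinite _
  have : Finite (W ⧸ N.subgroupOf W) :=
    Finite.of_injective (fun u => ((Subgroup.quotientEquivProdOfLE hle).symm
      ((QuotientGroup.mk (1 : G) : G ⧸ W), u)))
      (fun a b h => by
        have := (Subgroup.quotientEquivProdOfLE hle).symm.injective h
        exact (Prod.mk.inj this).2)
  letI : Fintype (W ⧸ N.subgroupOf W) := Fintype.ofFinite _
  rw [finprod_eq_prod_of_fintype, finprod_eq_prod_of_fintype]
  set e := Subgroup.quotientEquivProdOfLE hle with he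
  have key : ∀ s : G ⧸ N, φ (Quotient.out s) = φ (Quotient.out (e s).1) := by
    intro s
    have h1 : (e s).1 = (QuotientGroup.mk (Quotient.out s) : G ⧸ W) := by
      conv_lhs => rw [← Quotient.out_eq' s]
      rfl
    have h2 : (QuotientGroup.mk (Quotient.out (e s).1) : G ⧸ W) =
        QuotientGroup.mk (Quotient.out s) := by
      rw [← h1]
      exact Quotient.out_eq' _
    have h3 : (Quotient.out (e s).1)⁻¹ * Quotient.out s ∈ W := QuotientGroup.eq.mp h2
    have h4 := hφ (Quotient.out (e s).1) _ h3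
    rw [mul_inv_cancel_left] at h4
    exact h4
  calc ∏ s : G ⧸ N, φ (Quotient.out s)
      = ∏ s : G ⧸ N, φ (Quotient.out (e s).1) := Finset.prod_congr rfl (fun s _ => key s)
    _ = ∏ x : (G ⧸ W) × (W ⧸ N.subgroupOf W), φ (Quotient.out x.1) :=
        Equiv.prod_comp e (fun x => φ (Quotient.out x.1))
    _ = ∏ t : G ⧸ W, ∏ _u : W ⧸ N.subgroupOf W, φ (Quotient.out t) := by
        rw [Fintype.prod_prod_type]
    _ = ∏ t : G ⧸ W, φ (Quotient.out t) ^ (N.relIndex W) := by
        refine Finset.prod_congr rfl (fun t _ => ?_)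
        rw [Finset.prod_const, Finset.card_univ, Subgroup.relIndex, Subgroup.index,
          Nat.card_eq_fintype_card]
    _ = (∏ t : G ⧸ W, φ (Quotient.out t)) ^ (N.relIndex W) := Finset.prod_pow _ _ _

/-- `relNorm N b = relNorm W b ^ [W : N]` for `N ≤ W` of finite index and `b` fixed by `W`. -/
theorem relNorm_pow_relIndex {G M : Type*} [Group G] [CommGroup M] [MulDistribMulAction G M]
    {N W : Subgroup G} (hle : N ≤ W) [N.FiniteIndex] (b : M) (hb : ∀ w ∈ W, w • b = b) :
    relNorm N b = relNorm W b ^ (N.relIndex W) := by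
  unfold relNorm
  refine finprod_out_quot_pow hle (fun g => g • b) (fun g w hw => ?_)
  show (g * w) • b = g • b
  rw [mul_smul, hb w hw]

open scoped Classical in
/-- `relNorm W b` is fixed by the whole group. -/
theorem smul_relNorm {G M : Type*} [Group G] [CommGroup M] [MulDistribMulAction G M]
    {W : Subgroup G} [W.FiniteIndex] (b : M) (hb : ∀ w ∈ W, w • b = b) (g : G) :
    g • relNorm W b = relNorm W b := by
  letI : Fintype (G ⧸ W) := Fintype.ofFinite _
  unfold relNorm
  rw [finprod_eq_prod_of_fintype, Finset.smul_prod']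
  have key : ∀ t : G ⧸ W, g • ((Quotient.out t : G) • b) = (Quotient.out (g • t) : G) • b := by
    intro t
    have h1 : (QuotientGroup.mk (Quotient.out (g • t)) : G ⧸ W) =
        QuotientGroup.mk (g * Quotient.out t) := by
      rw [QuotientGroup.out_eq']
      conv_lhs => rw [← QuotientGroup.out_eq' t]
      rfl
    have h2 : (Quotient.out (g • t))⁻¹ * (g * Quotient.out t) ∈ W := QuotientGroup.eq.mp h1
    have h3 := hb _ h2
    rw [mul_smul, mul_smul, inv_smul_eq_iff] at h3
    exact h3
  rw [Finset.prod_congr rfl (fun t _ => key t)]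
  exact Equiv.prod_comp (MulAction.toPerm g : G ⧸ W ≃ G ⧸ W)
    (fun t => (Quotient.out t : G) • b)

end Fermat.Agent.S55.G.Rec.H413
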